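import Mathlib.NumberTheory.NumberField.Discriminant.Basic
import Mathlib.NumberTheory.NumberField.ClassNumber
import Mathlib.LinearAlgebra.FreeModule.IdealQuotient

/-!
# Lenstra's criterion for Euclidean number fields

Let `ω₁, …, ω_m` be integers of `K` with all differences units and let `m` exceed
`(4/π) ^ r₂ n! / n ^ n √|d|`. The `m` translates by the `x ωᵢ` of the body `∑ ‖·‖ ≤ B`, `B < n/2`,
have total volume above the covolume of the integers, so two of them meet modulo the integers: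
some `x (ωᵢ - ωⱼ) - c` has norm below one, and so has `x - c / (ωᵢ - ωⱼ)`.
-/

set_option autoImplicit false
set_option linter.style.haveILetI false

noncomputable section

namespace FA.LenstraEuclid

open NumberField NumberField.InfinitePlace Module MeasureTheory Real
open scoped ENNReal NNReal Pointwise

variable (K : Type*) [Field K] [NumberField K]

/-- `(4/π) ^ r₂ n! / n ^ n √|d|`. -/
def lenstraBound : ℝ :=
  (4 / π) ^ nrComplexPlaces K * (finrank ℚ K).factorial / (finrank ℚ K : ℝ) ^ finrank ℚ K *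
    √|(discr K : ℝ)|

/-- Every element is at norm distance below one from an integer. -/
def IsNormEuclideanField : Prop := ∀ x : K, ∃ c : 𝓞 K, |Algebra.norm ℚ (x - c)| < 1

variable {K}

/-- The differences are units. -/
def IsExceptionalSequence {ι : Type*} (ω : ι → 𝓞 K) : Prop :=
  ∀ i j, i ≠ j → IsUnit (ω i - ω j)

/-- An exceptional sequence is no longer than the norm of a proper nonzero ideal. -/
theorem IsExceptionalSequence.length_le_absNorm {m : ℕ} {ω : Fin m → 𝓞 K}
    (h : IsExceptionalSequence ω) {I : Ideal (𝓞 K)} (hI : I ≠ ⊤) (hI0 : I ≠ ⊥) :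
    m ≤ Ideal.absNorm I := by
  have hfin : Finite (𝓞 K ⧸ I) := Ideal.finiteQuotientOfFreeOfNeBot I hI0
  have hinj : Function.Injective fun i => Ideal.Quotient.mk I (ω i) := fun i j e => by
    by_contra hij
    exact hI (I.eq_top_of_isUnit_mem (Ideal.Quotient.eq.1 e) (h i j hij))
  have := Nat.card_le_card_of_injective _ hinj
  rwa [Nat.card_fin] at this

open mixedEmbedding in
/-- The arithmetic and geometric means. -/
theorem abs_norm_le_pow (a : K) :
    ((|Algebra.norm ℚ a| : ℚ) : ℝ) ≤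
      (convexBodySumFun (mixedEmbedding K a) / finrank ℚ K) ^ finrank ℚ K := by
  have hn : (0 : ℝ) < finrank ℚ K := Nat.cast_pos.2 finrank_pos
  have hS : 0 ≤ convexBodySumFun (mixedEmbedding K a) := convexBodySumFun_nonneg _
  have hmem := (convexBodySum_mem K (convexBodySumFun (mixedEmbedding K a))).1 (le_refl _ :
    convexBodySumFun (mixedEmbedding K a) ≤ convexBodySumFun (mixedEmbedding K a))
  rw [← Real.rpow_natCast, ← Real.rpow_le_rpow_iff (z := (finrank ℚ K : ℝ)⁻¹)
      (by simp only [Rat.cast_abs, abs_nonneg]) (Real.rpow_nonneg (by positivity) _)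
      (inv_pos.2 hn), ← Real.rpow_mul (by positivity), mul_inv_cancel₀ hn.ne', Real.rpow_one,
    le_div_iff₀' hn]
  refine le_trans ?_ hmem
  rw [← le_div_iff₀' hn, ← sum_mult_eq (K := K), Nat.cast_sum]
  refine le_trans ?_ (Real.geom_mean_le_arith_mean Finset.univ _ _ (fun _ _ => Nat.cast_nonneg _)
    ?_ (fun _ _ => AbsoluteValue.nonneg _ _))
  · simp_rw [← prod_eq_abs_norm, Real.rpow_natCast]
    exact le_of_eq rfl
  · rw [← Nat.cast_sum, sum_mult_eq, Nat.cast_pos]
    exact finrank_pos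

open mixedEmbedding in
/-- A difference of two points of the small body has norm below one. -/
theorem abs_norm_lt_one {B : ℝ} (hB : B < finrank ℚ K / 2) {a : K} {p q : mixedSpace K}
    (hp : p ∈ convexBodySum K B) (hq : q ∈ convexBodySum K B)
    (ha : mixedEmbedding K a = p - q) : |Algebra.norm ℚ a| < 1 := by
  have hn : (0 : ℝ) < finrank ℚ K := Nat.cast_pos.2 finrank_pos
  have h1 : convexBodySumFun (mixedEmbedding K a) < finrank ℚ K := by
    rw [ha, sub_eq_add_neg]
    have h2 := convexBodySumFun_add_le p (-q)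
    rw [convexBodySumFun_neg] at h2
    simp only [Set.mem_ofPred_eq] at hp hq
    linarith
  have h3 : ((|Algebra.norm ℚ a| : ℚ) : ℝ) < 1 := (abs_norm_le_pow a).trans_lt
    (pow_lt_one₀ (div_nonneg (convexBodySumFun_nonneg _) hn.le) ((div_lt_one hn).2 h1)
      finrank_pos.ne')
  exact_mod_cast h3

theorem covolume_eq_bound_mul :
    (2⁻¹ : ℝ) ^ nrComplexPlaces K * √|(discr K : ℝ)| =
      lenstraBound K * ((mixedEmbedding.convexBodySumFactor K : ℝ) *
        ((finrank ℚ K : ℝ) / 2) ^ finrank ℚ K) := by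
  have hn : ((finrank ℚ K : ℝ)) ^ finrank ℚ K ≠ 0 :=
    pow_ne_zero _ (Nat.cast_ne_zero.2 finrank_pos.ne')
  have hf : ((finrank ℚ K).factorial : ℝ) ≠ 0 := Nat.cast_ne_zero.2 (Nat.factorial_ne_zero _)
  have h2 : (2 : ℝ) ^ finrank ℚ K =
      2 ^ nrRealPlaces K * (2 ^ nrComplexPlaces K * 2 ^ nrComplexPlaces K) := by
    rw [← card_add_two_mul_card_eq_rank, pow_add, two_mul, pow_add]
  rw [lenstraBound, mixedEmbedding.convexBodySumFactor]
  push_cast
  rw [NNReal.coe_real_pi, div_pow (finrank ℚ K : ℝ), h2, div_pow, div_pow, inv_pow,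
    show (4 : ℝ) ^ nrComplexPlaces K = 2 ^ nrComplexPlaces K * 2 ^ nrComplexPlaces K by
      rw [← mul_pow]; norm_num]
  have hπ : (π : ℝ) ^ nrComplexPlaces K ≠ 0 := pow_ne_zero _ Real.pi_ne_zero
  field_simp

open mixedEmbedding in
open scoped Classical in
/-- **Lenstra's criterion.** -/
theorem isNormEuclideanField_of_sequence {m : ℕ} {ω : Fin m → 𝓞 K}
    (h : IsExceptionalSequence ω) (hm : lenstraBound K < m) : IsNormEuclideanField K := by
  intro x
  set n := finrank ℚ K
  have hn : (0 : ℝ) < n := Nat.cast_pos.2 finrank_pos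
  set C : ℝ := (convexBodySumFactor K : ℝ) with hC
  have hC0 : 0 < C := NNReal.coe_pos.2 (pos_iff_ne_zero.2 (convexBodySumFactor_ne_zero K))
  set V : ℝ := (2⁻¹ : ℝ) ^ nrComplexPlaces K * √|(discr K : ℝ)| with hV
  have hV0 : 0 ≤ V := by positivity
  have hlim : V < (m : ℝ) * (C * ((n : ℝ) / 2) ^ n) := by
    rw [hV, covolume_eq_bound_mul]
    exact mul_lt_mul_of_pos_right hm (by positivity)
  have hev : ∀ᶠ B in nhdsWithin ((n : ℝ) / 2) (Set.Iio ((n : ℝ) / 2)),
      V < (m : ℝ) * (C * B ^ n) :=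
    (((by fun_prop : Continuous fun B : ℝ => (m : ℝ) * (C * B ^ n)).tendsto _).eventually
      (lt_mem_nhds hlim)).filter_mono nhdsWithin_le_nhds
  obtain ⟨B, hBV, hB0, hB⟩ := (hev.and (Ioo_mem_nhdsLT (half_pos hn))).exists
  set U := convexBodySum K B with hU
  set y : Fin m → mixedSpace K := fun i => mixedEmbedding K (x * (ω i : K)) with hy
  -- two translates meet modulo the integers
  obtain ⟨i, j, c, hne, p, hp, q, hq, hpq⟩ : ∃ i j, ∃ c : 𝓞 K, (i ≠ j ∨ c ≠ 0) ∧
      ∃ p ∈ U, ∃ q ∈ U, mixedEmbedding K (x * ((ω i : K) - ω j) - c) = p - q := by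
    by_cases hdis : Pairwise (fun i j => Disjoint (y i +ᵥ U) (y j +ᵥ U))
    · have hmeas : MeasurableSet U := (convexBodySum_compact K B).isClosed.measurableSet
      have hvol : volume (⋃ i, y i +ᵥ U) = ENNReal.ofReal ((m : ℝ) * (C * B ^ n)) := by
        rw [measure_iUnion hdis fun i => hmeas.const_vadd _, tsum_fintype]
        simp_rw [measure_vadd, hU, convexBodySum_volume]
        rw [Finset.sum_const, Finset.card_univ, Fintype.card_fin, nsmul_eq_mul,
          ENNReal.ofReal_mul (Nat.cast_nonneg m), ENNReal.ofReal_natCast,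
          ENNReal.ofReal_mul hC0.le, ENNReal.ofReal_pow hB0.le, hC, ENNReal.ofReal_coe_nnreal]
      have hF : volume (ZSpan.fundamentalDomain (latticeBasis K)) = ENNReal.ofReal V := by
        rw [← ENNReal.ofReal_toReal (ZSpan.fundamentalDomain_isBounded _).measure_lt_top.ne, hV,
          ← covolume_integerLattice, ZLattice.covolume_eq_measure_fundamentalDomain _ _
            (fundamentalDomain_integerLattice K)]
        rfl
      have : Countable (Submodule.span ℤ (Set.range (latticeBasis K))).toAddSubgroup := by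
        change Countable (Submodule.span ℤ (Set.range (latticeBasis K)))
        infer_instance
      obtain ⟨⟨u, hu⟩, ⟨v, hv⟩, huv, hmeet⟩ := exists_pair_mem_lattice_not_disjoint_vadd
        (ZSpan.isAddFundamentalDomain' (latticeBasis K) volume)
        (MeasurableSet.iUnion fun i => hmeas.const_vadd (y i)).nullMeasurableSet
        (by rw [hF, hvol, ENNReal.ofReal_lt_ofReal_iff (hV0.trans_lt hBV)]; exact hBV)
      obtain ⟨z, hz1, hz2⟩ := Set.not_disjoint_iff.1 hmeet
      obtain ⟨z1, hz1', rfl⟩ := hz1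
      obtain ⟨z2, hz2', hz12⟩ := hz2
      obtain ⟨i, hi⟩ := Set.mem_iUnion.1 hz1'
      obtain ⟨j, hj⟩ := Set.mem_iUnion.1 hz2'
      obtain ⟨p, hp, rfl⟩ := hi
      obtain ⟨q, hq, rfl⟩ := hj
      rw [Submodule.mem_toAddSubgroup, mixedEmbedding.mem_span_latticeBasis] at hu hv
      obtain ⟨cu, hcu⟩ : ∃ c : 𝓞 K, mixedEmbedding K c = u := by
        simpa [mixedEmbedding.integerLattice] using hu
      obtain ⟨cv, hcv⟩ : ∃ c : 𝓞 K, mixedEmbedding K c = v := by
        simpa [mixedEmbedding.integerLattice] using hv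
      refine ⟨i, j, cv - cu, Or.inr fun e => huv (Subtype.ext ?_), q, hq, p, hp, ?_⟩
      · change u = v
        rw [← hcu, ← hcv, sub_eq_zero.1 e]
      · simp only [AddSubgroup.vadd_def, vadd_eq_add, hy] at hz12
        rw [← hcu, ← hcv] at hz12
        simp only [map_sub, mul_sub] at hz12 ⊢
        linear_combination (norm := abel) -hz12
    · rw [Pairwise] at hdis
      push Not at hdis
      obtain ⟨i, j, hij, hmeet⟩ := hdis
      obtain ⟨z, ⟨p, hp, rfl⟩, q, hq, hz⟩ := Set.not_disjoint_iff.1 hmeet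
      refine ⟨i, j, 0, Or.inl hij, q, hq, p, hp, ?_⟩
      simp only [vadd_eq_add, hy] at hz
      simp only [map_zero, sub_zero, mul_sub, map_sub]
      linear_combination (norm := abel) -hz
  have hlt := abs_norm_lt_one hB hp hq hpq
  by_cases hij : i = j
  · exfalso
    rw [hij, sub_self, mul_zero, zero_sub] at hlt
    have hc : c ≠ 0 := hne.resolve_left (not_not.2 hij)
    have h2 : Algebra.norm ℤ (-c) ≠ 0 := Algebra.norm_ne_zero_iff.2 (neg_ne_zero.2 hc)
    rw [show -(c : K) = ((-c : 𝓞 K) : K) by simp, ← Algebra.coe_norm_int, ← Int.cast_abs,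
      ← Int.cast_one, Int.cast_lt, Int.abs_lt_one_iff] at hlt
    exact h2 hlt
  · obtain ⟨u, hu⟩ := h i j hij
    refine ⟨c * ((u⁻¹ : (𝓞 K)ˣ) : 𝓞 K), ?_⟩
    have h2 : x - ((c * ((u⁻¹ : (𝓞 K)ˣ) : 𝓞 K) : 𝓞 K) : K) =
        (x * ((ω i : K) - ω j) - c) * (((u⁻¹ : (𝓞 K)ˣ) : 𝓞 K) : K) := by
      rw [show (ω i : K) - ω j = ((ω i - ω j : 𝓞 K) : K) by push_cast; rfl, ← hu, sub_mul,
        mul_assoc, ← map_mul, Units.mul_inv, map_one, mul_one]
      simp
    rw [h2, map_mul, abs_mul, show |Algebra.norm ℚ (((u⁻¹ : (𝓞 K)ˣ) : 𝓞 K) : K)| = 1 by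
      exact_mod_cast NumberField.Units.norm K u⁻¹, mul_one]
    exact hlt

/-- A Minkowski bound below two suffices. -/
theorem isNormEuclideanField_of_bound_lt_two (h : lenstraBound K < 2) :
    IsNormEuclideanField K := by
  refine isNormEuclideanField_of_sequence (ω := ![0, 1]) (fun i j hij => ?_) (by exact_mod_cast h)
  fin_cases i <;> fin_cases j <;> simp at hij ⊢

/-- The division algorithm. -/
theorem IsNormEuclideanField.division (h : IsNormEuclideanField K) (a b : 𝓞 K) (hb : b ≠ 0) :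
    ∃ q r : 𝓞 K, a = b * q + r ∧
      (Algebra.norm ℤ r).natAbs < (Algebra.norm ℤ b).natAbs := by
  obtain ⟨q, hq⟩ := h ((a : K) / b)
  refine ⟨q, a - b * q, by ring, ?_⟩
  have hb' : (b : K) ≠ 0 := RingOfIntegers.coe_ne_zero_iff.2 hb
  have hN : 0 < |Algebra.norm ℚ (b : K)| := abs_pos.2 (Algebra.norm_ne_zero_iff.2 hb')
  have h1 : |Algebra.norm ℚ ((a - b * q : 𝓞 K) : K)| < |Algebra.norm ℚ (b : K)| := by
    rw [show ((a - b * q : 𝓞 K) : K) = (b : K) * ((a : K) / b - q) by
      push_cast; field_simp, map_mul, abs_mul]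
    exact mul_lt_of_lt_one_right hN hq
  rw [← Algebra.coe_norm_int, ← Algebra.coe_norm_int, ← Int.cast_abs, ← Int.cast_abs,
    Int.cast_lt, Int.abs_eq_natAbs, Int.abs_eq_natAbs, Nat.cast_lt] at h1
  exact h1

/-- A norm-Euclidean ring of integers is principal. -/
theorem IsNormEuclideanField.isPrincipalIdealRing (h : IsNormEuclideanField K) :
    IsPrincipalIdealRing (𝓞 K) := by
  refine ⟨fun I => ?_⟩
  by_cases hI : I = ⊥
  · subst hI; infer_instance
  obtain ⟨b, ⟨hb, hb0⟩, hmin⟩ := (InvImage.wf (fun r : 𝓞 K => (Algebra.norm ℤ r).natAbs)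
    Nat.lt_wfRel.wf).has_min {r | r ∈ I ∧ r ≠ 0} (Submodule.exists_mem_ne_zero_of_ne_bot hI)
  refine ⟨b, le_antisymm (fun a ha => ?_) ((Submodule.span_singleton_le_iff_mem b I).2 hb)⟩
  obtain ⟨q, r, hqr, hlt⟩ := h.division a b hb0
  have hr : r = 0 := by
    by_contra hr
    refine hmin r ⟨?_, hr⟩ hlt
    rw [show r = a - b * q by rw [hqr]; ring]
    exact I.sub_mem ha (I.mul_mem_right _ hb)
  rw [Submodule.mem_span_singleton]
  exact ⟨q, by rw [hqr, hr, smul_eq_mul]; ring⟩

theorem IsNormEuclideanField.classNumber_eq_one (h : IsNormEuclideanField K) :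
    classNumber K = 1 :=
  classNumber_eq_one_iff.2 h.isPrincipalIdealRing

end FA.LenstraEuclid

end
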