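import Fermat.Agent.EuclideanLenstra.Criterion
import Mathlib.NumberTheory.NumberField.Cyclotomic.Basic
import Mathlib.NumberTheory.NumberField.Cyclotomic.Embeddings
import Mathlib.RingTheory.RootsOfUnity.CyclotomicUnits

/-!
# The exceptional sequence of a cyclotomic field

The `p` sums `1 + ζ + ⋯ + ζ ^ (i - 1)`, `i < p`, have unit differences, so `ℚ(ζ_p)` is
norm-Euclidean as soon as its bound is below `p`, which is so for `p = 3, 5, 7`.
-/

set_option autoImplicit false
set_option linter.style.haveILetI false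

noncomputable section

namespace FA.LenstraEuclid

open NumberField NumberField.InfinitePlace Module Real Finset

variable (p : ℕ) [hp : Fact p.Prime] (K : Type*) [Field K] [NumberField K]
  [IsCyclotomicExtension {p} ℚ K]

theorem exists_sequence_cyclotomic :
    ∃ ω : Fin p → 𝓞 K, IsExceptionalSequence ω := by
  have hζ := (IsCyclotomicExtension.zeta_spec p ℚ K).toInteger_isPrimitiveRoot
  set ζ := (IsCyclotomicExtension.zeta_spec p ℚ K).toInteger
  refine ⟨fun i => ∑ k ∈ range i, ζ ^ k, ?_⟩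
  have key : ∀ i j : Fin p, j < i →
      IsUnit ((∑ k ∈ range (i : ℕ), ζ ^ k) - ∑ k ∈ range (j : ℕ), ζ ^ k) := by
    intro i j hij
    obtain ⟨e, he⟩ : ∃ e, (i : ℕ) = j + e := ⟨i - j, by omega⟩
    rw [he, Finset.sum_range_add, add_sub_cancel_left]
    simp only [pow_add, ← Finset.mul_sum]
    refine (((hζ.isUnit hp.out.ne_zero).pow _).mul ?_)
    refine hζ.geom_sum_isUnit hp.out.two_le (Nat.coprime_comm.1
      (hp.out.coprime_iff_not_dvd.2 fun h => ?_))
    have := i.isLt
    have := Nat.le_of_dvd (by omega) h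
    omega
  intro i j hij
  rcases lt_or_gt_of_ne hij with h | h
  · rw [← neg_sub]; exact (key j i h).neg
  · exact key i j h

/-- The bound of `ℚ(ζ_p)`. -/
theorem lenstraBound_cyclotomic :
    lenstraBound K = (4 / π) ^ ((p - 1) / 2) * (p - 1).factorial / ((p - 1 : ℕ) : ℝ) ^ (p - 1) *
      √((p : ℝ) ^ (p - 2)) := by
  rw [lenstraBound, IsCyclotomicExtension.Rat.discr_prime p K,
    IsCyclotomicExtension.finrank (n := p) K (Polynomial.cyclotomic.irreducible_rat hp.out.pos),
    IsCyclotomicExtension.Rat.nrComplexPlaces_eq_totient_div_two p, Nat.totient_prime hp.out]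
  congr 2
  push_cast
  rw [abs_mul, abs_pow, abs_neg, abs_one, one_pow, one_mul, abs_pow, Nat.abs_cast]

/-- A cyclotomic field with bound below `p`. -/
theorem isNormEuclideanField_cyclotomic
    (h : (4 / π) ^ ((p - 1) / 2) * (p - 1).factorial / ((p - 1 : ℕ) : ℝ) ^ (p - 1) *
      √((p : ℝ) ^ (p - 2)) < p) : IsNormEuclideanField K := by
  obtain ⟨ω, hω⟩ := exists_sequence_cyclotomic p K
  exact isNormEuclideanField_of_sequence hω (by rwa [lenstraBound_cyclotomic p K])

/-- **`ℚ(ζ₃)`, `ℚ(ζ₅)` and `ℚ(ζ₇)`.** -/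
theorem isNormEuclideanField_le_seven (hmem : p = 3 ∨ p = 5 ∨ p = 7) :
    IsNormEuclideanField K := by
  refine isNormEuclideanField_cyclotomic p K ?_
  have h0 : (4 : ℝ) / π ≤ 4 / 3 := div_le_div_of_nonneg_left (by norm_num) three_pos pi_gt_three.le
  have h4 : (0 : ℝ) ≤ 4 / π := by positivity
  rcases hmem with rfl | rfl | rfl
  · calc _ ≤ (4 / 3 : ℝ) ^ 1 * (Nat.factorial 2 : ℝ) / (2 : ℝ) ^ 2 * 2 := by
          simp only [Nat.reduceSub, Nat.reduceDiv, Nat.cast_ofNat]
          gcongr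
          exact Real.sqrt_le_iff.2 ⟨by norm_num, by norm_num⟩
      _ < _ := by norm_num [Nat.factorial]
  · calc _ ≤ (4 / 3 : ℝ) ^ 2 * (Nat.factorial 4 : ℝ) / (4 : ℝ) ^ 4 * 12 := by
          simp only [Nat.reduceSub, Nat.reduceDiv, Nat.cast_ofNat]
          gcongr
          exact Real.sqrt_le_iff.2 ⟨by norm_num, by norm_num⟩
      _ < _ := by norm_num [Nat.factorial]
  · calc _ ≤ (4 / 3 : ℝ) ^ 3 * (Nat.factorial 6 : ℝ) / (6 : ℝ) ^ 6 * 130 := by
          simp only [Nat.reduceSub, Nat.reduceDiv, Nat.cast_ofNat]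
          gcongr
          exact Real.sqrt_le_iff.2 ⟨by norm_num, by norm_num⟩
      _ < _ := by norm_num [Nat.factorial]

end FA.LenstraEuclid

end
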